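import Mathlib.NumberTheory.ModularForms.NormTrace
import Mathlib.RingTheory.Polynomial.Vieta

/-!
# Elementary-symmetric and Lagrange-interpolation forms over a bigger group

For subgroups `𝒢, ℋ` of `GL(2, ℝ)` with `𝒢 ⊓ ℋ` of finite index in `ℋ`, and a modular form `f`
for `𝒢`, the translates of `f` under `ℋ` are permuted by the slash action of `ℋ`. Hence every
(weighted-homogeneous) symmetric expression in these translates is a modular form for `ℋ`.
-/

set_option autoImplicit false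

noncomputable section

open UpperHalfPlane SlashInvariantForm

open scoped ModularForm Topology Filter Manifold

namespace Fermat.Agent.S23.H1

variable {𝒢 ℋ : Subgroup (GL (Fin 2) ℝ)} {F : Type*} (f : F) [FunLike F ℍ ℂ] {k : ℤ}

local notation "𝒬" => ℋ ⧸ (𝒢.subgroupOf ℋ)

section funs

variable [SlashInvariantFormClass F 𝒢 k]

variable (ℋ) [𝒢.IsFiniteRelIndex ℋ]

/-- The `m`-th elementary symmetric function of the translates of `f`, as a function on `ℍ`. -/
def esymmFun (m : ℕ) : ℍ → ℂ :=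
  let := Fintype.ofFinite 𝒬
  ∑ s ∈ Finset.powersetCard m (Finset.univ : Finset 𝒬), ∏ q ∈ s, quotientFunc f q

lemma sum_powersetCard_map_perm {M : Type*} [AddCommMonoid M] {ι : Type*} [Fintype ι]
    [DecidableEq ι] (e : Equiv.Perm ι) (m : ℕ) (G : Finset ι → M) :
    ∑ s ∈ Finset.powersetCard m (Finset.univ : Finset ι), G (s.map e.toEmbedding) =
      ∑ s ∈ Finset.powersetCard m (Finset.univ : Finset ι), G s := by
  conv_rhs => rw [← Finset.map_univ_equiv e, Finset.powersetCard_map, Finset.sum_map]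
  rfl

lemma esymmFun_slash [ℋ.HasDetPlusMinusOne] (m : ℕ) {h : GL (Fin 2) ℝ} (hh : h ∈ ℋ) :
    esymmFun ℋ f m ∣[k * m] h = esymmFun ℋ f m := by
  let := Fintype.ofFinite 𝒬
  classical
  unfold esymmFun
  rw [SlashAction.sum_slash]
  have key : ∀ s ∈ Finset.powersetCard m (Finset.univ : Finset 𝒬),
      (∏ q ∈ s, quotientFunc f q) ∣[k * m] h =
        ∏ q ∈ s.map (MulAction.toPerm (⟨h, hh⟩ : ℋ)⁻¹).toEmbedding, quotientFunc f q := by
    intro s hs
    rw [Finset.mem_powersetCard] at hs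
    rw [← hs.2, ModularForm.prod_slash, Finset.prod_map]
    simp [quotientFunc_smul f hh, Subgroup.HasDetPlusMinusOne.abs_det hh,
      -Matrix.GeneralLinearGroup.val_det_apply]
  rw [Finset.sum_congr rfl key]
  exact sum_powersetCard_map_perm (MulAction.toPerm (⟨h, hh⟩ : ℋ)⁻¹) m
    (fun s => ∏ q ∈ s, quotientFunc f q)

end funs

end Fermat.Agent.S23.H1

namespace Fermat.Agent.S23.H1

variable {𝒢 ℋ : Subgroup (GL (Fin 2) ℝ)} {F : Type*} (f : F) [FunLike F ℍ ℂ] {k : ℤ}

local notation "𝒬" => ℋ ⧸ (𝒢.subgroupOf ℋ)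

section forms

variable (ℋ) [𝒢.IsFiniteRelIndex ℋ]

lemma mdiff_quotientFunc [ModularFormClass F 𝒢 k] (q : 𝒬) : MDiff (quotientFunc f q) := by
  induction q using Quotient.inductionOn with
  | h r => exact (ModularForm.translate f r.val⁻¹).holo'

lemma isBoundedAtImInfty_quotientFunc_slash [ModularFormClass F 𝒢 k] {γ : GL (Fin 2) ℝ}
    (h : IsCusp (γ • OnePoint.infty) ℋ) (q : 𝒬) :
    IsBoundedAtImInfty (quotientFunc f q ∣[k] γ) := by
  induction q using Quotient.inductionOn with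
  | h r =>
    refine (ModularForm.translate f _).bdd_at_cusps' ?_ γ rfl
    simpa using h.of_isFiniteRelIndex_conj r.2

lemma isZeroAtImInfty_quotientFunc_slash [CuspFormClass F 𝒢 k] {γ : GL (Fin 2) ℝ}
    (h : IsCusp (γ • OnePoint.infty) ℋ) (q : 𝒬) :
    IsZeroAtImInfty (quotientFunc f q ∣[k] γ) := by
  induction q using Quotient.inductionOn with
  | h r =>
    refine (CuspForm.translate f _).zero_at_cusps' ?_ γ rfl
    simpa using h.of_isFiniteRelIndex_conj r.2

lemma isBoundedAtImInfty_prod_slash [ModularFormClass F 𝒢 k] {γ : GL (Fin 2) ℝ}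
    (h : IsCusp (γ • OnePoint.infty) ℋ) (s : Finset 𝒬) :
    IsBoundedAtImInfty ((∏ q ∈ s, quotientFunc f q) ∣[k * s.card] γ) := by
  rw [ModularForm.prod_slash, IsBoundedAtImInfty, Filter.BoundedAtFilter]
  apply Asymptotics.IsBigO.const_smul_left
  rw [show (1 : ℍ → ℝ) = (fun x ↦ ∏ _i ∈ s, (1 : ℝ)) by ext; simp, Finset.prod_fn]
  exact .finsetProd fun q _ => isBoundedAtImInfty_quotientFunc_slash ℋ f h q

/-- The `m`-th elementary symmetric function of the translates of a modular form `f` for `𝒢`,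
as a modular form for `ℋ` of weight `k * m`. -/
def esymmForm [ℋ.HasDetPlusMinusOne] [ModularFormClass F 𝒢 k] (m : ℕ) :
    ModularForm ℋ (k * m) where
  toFun := esymmFun ℋ f m
  slash_action_eq' h hh := esymmFun_slash ℋ f m hh
  holo' := by
    let := Fintype.ofFinite 𝒬
    exact .sum fun s _ => .prod fun q _ => mdiff_quotientFunc ℋ f q
  bdd_at_cusps' h γ := by
    rintro rfl
    let := Fintype.ofFinite 𝒬
    show IsBoundedAtImInfty (esymmFun ℋ f m ∣[k * (m : ℤ)] γ)
    unfold esymmFun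
    rw [SlashAction.sum_slash, IsBoundedAtImInfty, Filter.BoundedAtFilter, Finset.sum_fn]
    refine .fun_sum fun s hs => ?_
    rw [Finset.mem_powersetCard] at hs
    rw [← hs.2]
    exact isBoundedAtImInfty_prod_slash ℋ f h s

lemma isZeroAtImInfty_prod_slash [CuspFormClass F 𝒢 k] {γ : GL (Fin 2) ℝ}
    (h : IsCusp (γ • OnePoint.infty) ℋ) {s : Finset 𝒬} (hs : s.Nonempty) :
    IsZeroAtImInfty ((∏ q ∈ s, quotientFunc f q) ∣[k * s.card] γ) := by
  rw [ModularForm.prod_slash, IsZeroAtImInfty, Filter.ZeroAtFilter]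
  have h1 : Filter.Tendsto (fun τ => ∏ q ∈ s, (quotientFunc f q ∣[k] γ) τ) atImInfty
      (𝓝 (∏ _q ∈ s, (0 : ℂ))) :=
    tendsto_finsetProd _ fun q _ => isZeroAtImInfty_quotientFunc_slash ℋ f h q
  rw [Finset.prod_const, zero_pow (Finset.card_ne_zero.mpr hs)] at h1
  have h2 := h1.const_smul (|γ.det.val| ^ ((s.card : ℤ) - 1))
  rw [smul_zero] at h2
  convert h2 using 1
  ext τ
  simp [Finset.prod_apply]

/-- The `m`-th elementary symmetric function (`m ≠ 0`) of the translates of a cusp form `f` for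
`𝒢`, as a cusp form for `ℋ` of weight `k * m`. -/
def esymmCuspForm [ℋ.HasDetPlusMinusOne] [CuspFormClass F 𝒢 k] (m : ℕ) (hm : m ≠ 0) :
    CuspForm ℋ (k * m) where
  toFun := esymmFun ℋ f m
  slash_action_eq' h hh := esymmFun_slash ℋ f m hh
  holo' := by
    let := Fintype.ofFinite 𝒬
    exact .sum fun s _ => .prod fun q _ => mdiff_quotientFunc ℋ f q
  zero_at_cusps' h γ := by
    rintro rfl
    let := Fintype.ofFinite 𝒬
    show IsZeroAtImInfty (esymmFun ℋ f m ∣[k * (m : ℤ)] γ)
    unfold esymmFun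
    rw [SlashAction.sum_slash, IsZeroAtImInfty, Filter.ZeroAtFilter, Finset.sum_fn]
    rw [show (0 : ℂ) = ∑ _s ∈ Finset.powersetCard m (Finset.univ : Finset 𝒬), (0 : ℂ) by simp]
    refine tendsto_finsetSum _ fun s hs => ?_
    rw [Finset.mem_powersetCard] at hs
    have hne : s.Nonempty := Finset.card_pos.mp (by omega)
    have := isZeroAtImInfty_prod_slash ℋ f h hne
    rw [hs.2] at this
    exact this

@[simp] lemma esymmForm_apply [ℋ.HasDetPlusMinusOne] [ModularFormClass F 𝒢 k] (m : ℕ) (τ : ℍ) :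
    esymmForm ℋ f m τ = esymmFun ℋ f m τ := rfl

@[simp] lemma esymmCuspForm_apply [ℋ.HasDetPlusMinusOne] [CuspFormClass F 𝒢 k] (m : ℕ)
    (hm : m ≠ 0) (τ : ℍ) : esymmCuspForm ℋ f m hm τ = esymmFun ℋ f m τ := rfl

end forms

end Fermat.Agent.S23.H1
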