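import Fermat.Agent.S23.H1.Lagrange

/-!
# Vieta and Lagrange identities for the translates of modular forms
-/

set_option autoImplicit false

noncomputable section

open UpperHalfPlane SlashInvariantForm

open scoped ModularForm Topology Filter Manifold

namespace Fermat.Agent.S23.H1

/-- Evaluated form of Vieta's formula. -/
lemma prod_sub_eq_sum_esymm {ι : Type*} (t : Finset ι) (b : ι → ℂ) (x : ℂ) :
    ∏ l ∈ t, (x - b l) = ∑ m ∈ Finset.range (t.card + 1),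
      (-1) ^ m * (∑ s ∈ t.powersetCard m, ∏ l ∈ s, b l) * x ^ (t.card - m) := by
  have h := congrArg (Polynomial.eval x) (Multiset.prod_X_sub_X_eq_sum_esymm (t.val.map b))
  rw [Polynomial.eval_multiset_prod, Multiset.map_map, Polynomial.eval_finsetSum] at h
  simp only [Function.comp_apply, Polynomial.eval_sub, Polynomial.eval_X, Polynomial.eval_C,
    Multiset.card_map, Finset.card_val, Polynomial.eval_mul, Polynomial.eval_pow,
    Polynomial.eval_neg, Polynomial.eval_one, Finset.esymm_map_val, Multiset.map_map] at h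
  rw [Finset.prod_eq_multiset_prod]
  refine h.trans (Finset.sum_congr rfl fun m _ => ?_)
  ring

variable {𝒢 ℋ : Subgroup (GL (Fin 2) ℝ)} {F : Type*} (f : F) [FunLike F ℍ ℂ] {k : ℤ}
  {G' : Type*} (g : G') [FunLike G' ℍ ℂ] {w : ℤ}

local notation "𝒬" => ℋ ⧸ (𝒢.subgroupOf ℋ)

section identities

variable (ℋ)

lemma quotientFunc_one [SlashInvariantFormClass F 𝒢 k] :
    quotientFunc f ((1 : ℋ) : 𝒬) = ⇑f := by
  show quotientFunc f ⟦(1 : ℋ)⟧ = ⇑f
  rw [quotientFunc_mk]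
  simp

variable [𝒢.IsFiniteRelIndex ℋ]

/-- **Vieta**: `f` is a root of `∏_q (X - f_q) = ∑_m (-1)^m e_m(f_•) X^(μ - m)`. -/
theorem vieta_apply [SlashInvariantFormClass F 𝒢 k] (τ : ℍ) :
    ∑ m ∈ Finset.range (Nat.card 𝒬 + 1),
      (-1 : ℂ) ^ m * esymmFun ℋ f m τ * f τ ^ (Nat.card 𝒬 - m) = 0 := by
  let := Fintype.ofFinite 𝒬
  have h := prod_sub_eq_sum_esymm (Finset.univ : Finset 𝒬) (fun q => quotientFunc f q τ) (f τ)
  rw [Finset.card_univ, ← Nat.card_eq_fintype_card] at h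
  have h0 : ∏ l : 𝒬, (f τ - quotientFunc f l τ) = 0 :=
    Finset.prod_eq_zero (Finset.mem_univ ((1 : ℋ) : 𝒬)) (by rw [quotientFunc_one]; simp)
  rw [h0] at h
  rw [h]
  refine Finset.sum_congr rfl fun m _ => ?_
  simp [esymmFun, Finset.sum_apply, Finset.prod_apply]

open Classical in
/-- The function `∏_{q ≠ 1} (g - g_q)`: the "different" of `g` over `ℋ`. -/
def discFun [SlashInvariantFormClass G' 𝒢 w] : ℍ → ℂ :=
  let := Fintype.ofFinite 𝒬
  ∏ q ∈ (Finset.univ : Finset 𝒬).erase ((1 : ℋ) : 𝒬), (⇑g - quotientFunc g q)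

lemma sum_esymmEraseFun_eq_prod [SlashInvariantFormClass G' 𝒢 w] (q : 𝒬) (τ : ℍ) (x : ℂ) :
    ∑ m ∈ Finset.range (Nat.card 𝒬), (-1 : ℂ) ^ m * esymmEraseFun ℋ g q m τ *
      x ^ (Nat.card 𝒬 - 1 - m) =
    (let := Fintype.ofFinite 𝒬; open Classical in
      ∏ l ∈ (Finset.univ : Finset 𝒬).erase q, (x - quotientFunc g l τ)) := by
  let := Fintype.ofFinite 𝒬
  classical
  have h := prod_sub_eq_sum_esymm ((Finset.univ : Finset 𝒬).erase q)
    (fun l => quotientFunc g l τ) x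
  have hc : ((Finset.univ : Finset 𝒬).erase q).card = Nat.card 𝒬 - 1 := by
    rw [Finset.card_erase_of_mem (Finset.mem_univ q), Finset.card_univ,
      Nat.card_eq_fintype_card]
  have hpos : 0 < Nat.card 𝒬 := Nat.card_pos
  rw [hc, Nat.sub_add_cancel hpos] at h
  show _ = ∏ l ∈ (Finset.univ : Finset 𝒬).erase q, (x - quotientFunc g l τ)
  rw [h]
  refine Finset.sum_congr rfl fun m _ => ?_
  simp [esymmEraseFun, Finset.sum_apply, Finset.prod_apply]

/-- **Lagrange interpolation**: `∑_m (-1)^m L_m g^(μ-1-m) = f · ∏_{q ≠ 1} (g - g_q)`, where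
`L_m = ∑_q f_q e_m(g_l : l ≠ q)`. -/
theorem lagrange_apply [SlashInvariantFormClass F 𝒢 k] [SlashInvariantFormClass G' 𝒢 w] (τ : ℍ) :
    ∑ m ∈ Finset.range (Nat.card 𝒬),
      (-1 : ℂ) ^ m * lagrangeFun ℋ f g m τ * g τ ^ (Nat.card 𝒬 - 1 - m) =
    f τ * discFun ℋ g τ := by
  let := Fintype.ofFinite 𝒬
  classical
  have h1 : ∀ m, (-1 : ℂ) ^ m * lagrangeFun ℋ f g m τ * g τ ^ (Nat.card 𝒬 - 1 - m) =
      ∑ q : 𝒬, quotientFunc f q τ *
        ((-1 : ℂ) ^ m * esymmEraseFun ℋ g q m τ * g τ ^ (Nat.card 𝒬 - 1 - m)) := by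
    intro m
    simp only [lagrangeFun, Finset.sum_apply, Pi.mul_apply, Finset.mul_sum, Finset.sum_mul]
    exact Finset.sum_congr rfl fun q _ => by ring
  simp_rw [h1]
  rw [Finset.sum_comm]
  simp_rw [← Finset.mul_sum, sum_esymmEraseFun_eq_prod ℋ g _ τ (g τ)]
  rw [Finset.sum_eq_single ((1 : ℋ) : 𝒬)]
  · rw [quotientFunc_one]
    simp [discFun, Finset.prod_apply]
  · intro q _ hq
    have : ∏ l ∈ (Finset.univ : Finset 𝒬).erase q, (g τ - quotientFunc g l τ) = 0 :=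
      Finset.prod_eq_zero (Finset.mem_erase.mpr ⟨Ne.symm hq, Finset.mem_univ _⟩)
        (by rw [quotientFunc_one]; simp)
    rw [this, mul_zero]
  · intro h; exact absurd (Finset.mem_univ _) h

/-- **Lagrange interpolation** for `f = 1`: `∑_m (-1)^m D_m g^(μ-1-m) = ∏_{q ≠ 1} (g - g_q)`,
where `D_m = ∑_q e_m(g_l : l ≠ q)`. -/
theorem lagrange_one_apply [SlashInvariantFormClass G' 𝒢 w] (τ : ℍ) :
    ∑ m ∈ Finset.range (Nat.card 𝒬),
      (-1 : ℂ) ^ m * sumEsymmEraseFun ℋ g m τ * g τ ^ (Nat.card 𝒬 - 1 - m) =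
    discFun ℋ g τ := by
  let := Fintype.ofFinite 𝒬
  classical
  have h1 : ∀ m, (-1 : ℂ) ^ m * sumEsymmEraseFun ℋ g m τ * g τ ^ (Nat.card 𝒬 - 1 - m) =
      ∑ q : 𝒬, ((-1 : ℂ) ^ m * esymmEraseFun ℋ g q m τ * g τ ^ (Nat.card 𝒬 - 1 - m)) := by
    intro m
    simp only [sumEsymmEraseFun, Finset.sum_apply, Finset.mul_sum, Finset.sum_mul]
  simp_rw [h1]
  rw [Finset.sum_comm]
  simp_rw [sum_esymmEraseFun_eq_prod ℋ g _ τ (g τ)]
  rw [Finset.sum_eq_single ((1 : ℋ) : 𝒬)]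
  · simp [discFun, Finset.prod_apply]
  · intro q _ hq
    exact Finset.prod_eq_zero (Finset.mem_erase.mpr ⟨Ne.symm hq, Finset.mem_univ _⟩)
        (by rw [quotientFunc_one]; simp)
  · intro h; exact absurd (Finset.mem_univ _) h

/-- If no nontrivial translate of `g` equals `g`, then `∏_{q ≠ 1} (g - g_q)` is not the zero
function. -/
theorem discFun_ne_zero [ModularFormClass G' 𝒢 w]
    (hg : ∀ q : 𝒬, q ≠ ((1 : ℋ) : 𝒬) → quotientFunc g q ≠ ⇑g) : discFun ℋ g ≠ 0 := by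
  let := Fintype.ofFinite 𝒬
  classical
  intro h0
  unfold discFun at h0
  rw [UpperHalfPlane.prod_eq_zero_iff] at h0
  · obtain ⟨q, hq, hq0⟩ := h0
    exact hg q (Finset.mem_erase.mp hq).1 (sub_eq_zero.mp hq0).symm
  · intro q _
    exact (ModularFormClass.holo g).sub (mdiff_quotientFunc ℋ g q)

/-- Variant of `discFun_ne_zero` with the hypothesis phrased via the slash action: the stabiliser
of `g` in `ℋ` is contained in `𝒢`. -/
theorem discFun_ne_zero_of_slash [ModularFormClass G' 𝒢 w]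
    (hg : ∀ h ∈ ℋ, (⇑g) ∣[w] h = ⇑g → h ∈ 𝒢) : discFun ℋ g ≠ 0 := by
  refine discFun_ne_zero ℋ g fun q hq hqg => hq ?_
  induction q using Quotient.inductionOn with
  | h r =>
    have h1 : (⇑g) ∣[w] (r : GL (Fin 2) ℝ)⁻¹ = ⇑g := hqg
    have h2 : (r : GL (Fin 2) ℝ)⁻¹ ∈ 𝒢 := hg _ (ℋ.inv_mem r.2) h1
    symm
    exact QuotientGroup.eq.mpr (by simpa [Subgroup.mem_subgroupOf] using h2)

end identities

end Fermat.Agent.S23.H1
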