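import Fermat.Agent.S23.H1.Esymm

/-!
# Lagrange-interpolation forms

For modular forms `f` (weight `k`) and `g` (weight `w`) for `𝒢`, with translates `f_q`, `g_q`
(`q ∈ ℋ ⧸ 𝒢 ⊓ ℋ`), the functions `∑_q f_q · e_m(g_l : l ≠ q)` are modular forms for `ℋ` of weight
`k + w * m`. They are the coefficients of the Lagrange interpolation polynomial
`∑_q f_q ∏_{l ≠ q} (X - g_l)`.
-/

set_option autoImplicit false

noncomputable section

open UpperHalfPlane SlashInvariantForm

open scoped ModularForm Topology Filter Manifold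

namespace Fermat.Agent.S23.H1

variable {𝒢 ℋ : Subgroup (GL (Fin 2) ℝ)} {F : Type*} (f : F) [FunLike F ℍ ℂ] {k : ℤ}
  {G' : Type*} (g : G') [FunLike G' ℍ ℂ] {w : ℤ}

local notation "𝒬" => ℋ ⧸ (𝒢.subgroupOf ℋ)

section funs

variable [SlashInvariantFormClass G' 𝒢 w]

variable (ℋ) [𝒢.IsFiniteRelIndex ℋ]

open Classical in
/-- The `m`-th elementary symmetric function of the translates of `g` other than the `q`-th. -/
def esymmEraseFun (q : 𝒬) (m : ℕ) : ℍ → ℂ :=
  let := Fintype.ofFinite 𝒬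
  ∑ s ∈ Finset.powersetCard m ((Finset.univ : Finset 𝒬).erase q), ∏ l ∈ s, quotientFunc g l

lemma sum_powersetCard_erase_map_perm {M : Type*} [AddCommMonoid M] {ι : Type*} [Fintype ι]
    [DecidableEq ι] (e : Equiv.Perm ι) (q : ι) (m : ℕ) (G : Finset ι → M) :
    ∑ s ∈ Finset.powersetCard m ((Finset.univ : Finset ι).erase q), G (s.map e.toEmbedding) =
      ∑ s ∈ Finset.powersetCard m ((Finset.univ : Finset ι).erase (e q)), G s := by
  have h1 : (Finset.univ : Finset ι).erase (e q) =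
      ((Finset.univ : Finset ι).erase q).map e.toEmbedding := by
    rw [Finset.map_erase, Finset.map_univ_equiv]
    rfl
  rw [h1, Finset.powersetCard_map, Finset.sum_map]
  rfl

lemma esymmEraseFun_slash [ℋ.HasDetPlusMinusOne] (q : 𝒬) (m : ℕ) {h : GL (Fin 2) ℝ}
    (hh : h ∈ ℋ) :
    esymmEraseFun ℋ g q m ∣[w * m] h = esymmEraseFun ℋ g ((⟨h, hh⟩ : ℋ)⁻¹ • q) m := by
  let := Fintype.ofFinite 𝒬
  classical
  unfold esymmEraseFun
  rw [SlashAction.sum_slash]
  have key : ∀ s ∈ Finset.powersetCard m ((Finset.univ : Finset 𝒬).erase q),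
      (∏ l ∈ s, quotientFunc g l) ∣[w * m] h =
        ∏ l ∈ s.map (MulAction.toPerm (⟨h, hh⟩ : ℋ)⁻¹).toEmbedding, quotientFunc g l := by
    intro s hs
    rw [Finset.mem_powersetCard] at hs
    rw [← hs.2, ModularForm.prod_slash, Finset.prod_map]
    simp [quotientFunc_smul g hh, Subgroup.HasDetPlusMinusOne.abs_det hh,
      -Matrix.GeneralLinearGroup.val_det_apply]
  rw [Finset.sum_congr rfl key]
  exact sum_powersetCard_erase_map_perm (MulAction.toPerm (⟨h, hh⟩ : ℋ)⁻¹) q m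
    (fun s => ∏ l ∈ s, quotientFunc g l)

variable [SlashInvariantFormClass F 𝒢 k]

/-- The `m`-th coefficient (up to sign) of the Lagrange interpolation polynomial
`∑_q f_q ∏_{l ≠ q} (X - g_l)`, as a function on `ℍ`. -/
def lagrangeFun (m : ℕ) : ℍ → ℂ :=
  let := Fintype.ofFinite 𝒬
  ∑ q : 𝒬, quotientFunc f q * esymmEraseFun ℋ g q m

lemma lagrangeFun_slash [ℋ.HasDetPlusMinusOne] (m : ℕ) {h : GL (Fin 2) ℝ} (hh : h ∈ ℋ) :
    lagrangeFun ℋ f g m ∣[k + w * m] h = lagrangeFun ℋ f g m := by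
  let := Fintype.ofFinite 𝒬
  unfold lagrangeFun
  rw [SlashAction.sum_slash]
  have key : ∀ q : 𝒬, (quotientFunc f q * esymmEraseFun ℋ g q m) ∣[k + w * m] h =
      quotientFunc f ((⟨h, hh⟩ : ℋ)⁻¹ • q) * esymmEraseFun ℋ g ((⟨h, hh⟩ : ℋ)⁻¹ • q) m := by
    intro q
    rw [ModularForm.mul_slash, esymmEraseFun_slash ℋ g q m hh, quotientFunc_smul f hh]
    simp [Subgroup.HasDetPlusMinusOne.abs_det hh, -Matrix.GeneralLinearGroup.val_det_apply]
  simp_rw [key]
  exact Equiv.sum_comp (MulAction.toPerm (⟨h, hh⟩ : ℋ)⁻¹)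
    (fun q => quotientFunc f q * esymmEraseFun ℋ g q m)

/-- The sum over `q` of the `m`-th elementary symmetric functions of the translates of `g` other
than the `q`-th: this is `lagrangeFun` with `f` replaced by the constant function `1`. -/
def sumEsymmEraseFun (m : ℕ) : ℍ → ℂ :=
  let := Fintype.ofFinite 𝒬
  ∑ q : 𝒬, esymmEraseFun ℋ g q m

omit [SlashInvariantFormClass F 𝒢 k] in
lemma sumEsymmEraseFun_slash [ℋ.HasDetPlusMinusOne] (m : ℕ) {h : GL (Fin 2) ℝ} (hh : h ∈ ℋ) :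
    sumEsymmEraseFun ℋ g m ∣[w * m] h = sumEsymmEraseFun ℋ g m := by
  let := Fintype.ofFinite 𝒬
  unfold sumEsymmEraseFun
  rw [SlashAction.sum_slash]
  simp_rw [esymmEraseFun_slash ℋ g _ m hh]
  exact Equiv.sum_comp (MulAction.toPerm (⟨h, hh⟩ : ℋ)⁻¹) (fun q => esymmEraseFun ℋ g q m)

end funs

section forms

variable (ℋ) [𝒢.IsFiniteRelIndex ℋ]

lemma mdiff_esymmEraseFun [ModularFormClass G' 𝒢 w] (q : 𝒬) (m : ℕ) :
    MDiff (esymmEraseFun ℋ g q m) := by
  let := Fintype.ofFinite 𝒬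
  exact .sum fun s _ => .prod fun l _ => mdiff_quotientFunc ℋ g l

lemma isBoundedAtImInfty_esymmEraseFun_slash [ModularFormClass G' 𝒢 w] {γ : GL (Fin 2) ℝ}
    (h : IsCusp (γ • OnePoint.infty) ℋ) (q : 𝒬) (m : ℕ) :
    IsBoundedAtImInfty (esymmEraseFun ℋ g q m ∣[w * m] γ) := by
  let := Fintype.ofFinite 𝒬
  unfold esymmEraseFun
  rw [SlashAction.sum_slash, IsBoundedAtImInfty, Filter.BoundedAtFilter, Finset.sum_fn]
  refine .fun_sum fun s hs => ?_
  rw [Finset.mem_powersetCard] at hs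
  rw [← hs.2]
  exact isBoundedAtImInfty_prod_slash ℋ g h s

/-- The sum over `q` of the `m`-th elementary symmetric functions of the translates of `g` other
than the `q`-th, as a modular form for `ℋ` of weight `w * m`. -/
def sumEsymmEraseForm [ℋ.HasDetPlusMinusOne] [ModularFormClass G' 𝒢 w] (m : ℕ) :
    ModularForm ℋ (w * m) where
  toFun := sumEsymmEraseFun ℋ g m
  slash_action_eq' h hh := sumEsymmEraseFun_slash ℋ g m hh
  holo' := by
    let := Fintype.ofFinite 𝒬
    exact .sum fun q _ => mdiff_esymmEraseFun ℋ g q m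
  bdd_at_cusps' h γ := by
    rintro rfl
    let := Fintype.ofFinite 𝒬
    show IsBoundedAtImInfty (sumEsymmEraseFun ℋ g m ∣[w * (m : ℤ)] γ)
    unfold sumEsymmEraseFun
    rw [SlashAction.sum_slash, IsBoundedAtImInfty, Filter.BoundedAtFilter, Finset.sum_fn]
    exact .fun_sum fun q _ => isBoundedAtImInfty_esymmEraseFun_slash ℋ g h q m

/-- The Lagrange coefficient `∑_q f_q · e_m(g_l : l ≠ q)` as a modular form for `ℋ` of weight
`k + w * m`. -/
def lagrangeForm [ℋ.HasDetPlusMinusOne] [ModularFormClass F 𝒢 k] [ModularFormClass G' 𝒢 w]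
    (m : ℕ) : ModularForm ℋ (k + w * m) where
  toFun := lagrangeFun ℋ f g m
  slash_action_eq' h hh := lagrangeFun_slash ℋ f g m hh
  holo' := by
    let := Fintype.ofFinite 𝒬
    exact .sum fun q _ => (mdiff_quotientFunc ℋ f q).mul (mdiff_esymmEraseFun ℋ g q m)
  bdd_at_cusps' h γ := by
    rintro rfl
    let := Fintype.ofFinite 𝒬
    show IsBoundedAtImInfty (lagrangeFun ℋ f g m ∣[k + w * (m : ℤ)] γ)
    unfold lagrangeFun
    rw [SlashAction.sum_slash, IsBoundedAtImInfty, Filter.BoundedAtFilter, Finset.sum_fn]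
    refine .fun_sum fun q _ => ?_
    rw [ModularForm.mul_slash]
    exact ((isBoundedAtImInfty_quotientFunc_slash ℋ f h q).mul
      (isBoundedAtImInfty_esymmEraseFun_slash ℋ g h q m)).smul _

/-- The Lagrange coefficient `∑_q f_q · e_m(g_l : l ≠ q)` as a cusp form for `ℋ` of weight
`k + w * m`, when `f` is a cusp form. -/
def lagrangeCuspForm [ℋ.HasDetPlusMinusOne] [CuspFormClass F 𝒢 k] [ModularFormClass G' 𝒢 w]
    (m : ℕ) : CuspForm ℋ (k + w * m) where
  toFun := lagrangeFun ℋ f g m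
  slash_action_eq' h hh := lagrangeFun_slash ℋ f g m hh
  holo' := by
    let := Fintype.ofFinite 𝒬
    exact .sum fun q _ => (mdiff_quotientFunc ℋ f q).mul (mdiff_esymmEraseFun ℋ g q m)
  zero_at_cusps' h γ := by
    rintro rfl
    let := Fintype.ofFinite 𝒬
    show IsZeroAtImInfty (lagrangeFun ℋ f g m ∣[k + w * (m : ℤ)] γ)
    unfold lagrangeFun
    rw [SlashAction.sum_slash, IsZeroAtImInfty, Filter.ZeroAtFilter, Finset.sum_fn]
    rw [show (0 : ℂ) = ∑ _q : 𝒬, (0 : ℂ) by simp]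
    refine tendsto_finsetSum _ fun q _ => ?_
    rw [ModularForm.mul_slash]
    exact (((isZeroAtImInfty_quotientFunc_slash ℋ f h q).mul_boundedAtFilter
      (isBoundedAtImInfty_esymmEraseFun_slash ℋ g h q m)).smul _)

end forms

end Fermat.Agent.S23.H1
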